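import Fermat.Agent.S19.Unr.H992.Base

/-!
# UNR / node UB (helper992) — the equivariant elements of a local order span it

`spanningStatement : SpanningStatement` (frozen in `Fermat/Agent/S19/Unr/Spec.lean`).
-/

set_option autoImplicit false
set_option linter.unusedSectionVars false
set_option linter.style.haveILetI false
set_option linter.unusedVariables false

noncomputable section

namespace Fermat.Agent.S19.Unr.H992

open Fermat.Agent.S19 Fermat.Agent.S19.Unr Fermat.Agent.S14.H714
open scoped Pointwise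

section LinearAlgebra

/-- Linearly independent functions `χ_q : X → k` (finitely many) admit a finitely supported
combination of evaluations equal to a given coordinate vector. -/
theorem exists_finsupp_of_linearIndependent {k X Γ : Type*} [Field k] [Fintype Γ]
    [DecidableEq Γ] (χ : Γ → X → k) (hχ : LinearIndependent k χ) (q0 : Γ) :
    ∃ c : X →₀ k, ∀ q, (c.sum fun θ a => a * χ q θ) = if q = q0 then 1 else 0 := by
  classical
  let v : X → (Γ → k) := fun θ q => χ q θ
  have hmem : (Pi.single q0 1 : Γ → k) ∈ Submodule.span k (Set.range v) := by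
    by_contra hnot
    obtain ⟨f, hf, hle⟩ := Submodule.exists_le_ker_of_notMem hnot
    have hg : ∀ q, f (fun j => if q = j then 1 else 0) = 0 := by
      have hsum : ∑ q, f (fun j => if q = j then (1 : k) else 0) • χ q = 0 := by
        funext θ
        have h0 : f (v θ) = 0 := hle (Submodule.subset_span ⟨θ, rfl⟩)
        rw [LinearMap.pi_apply_eq_sum_univ] at h0
        simp only [Finset.sum_apply, Pi.smul_apply, smul_eq_mul, Pi.zero_apply]
        refine Eq.trans (Finset.sum_congr rfl fun q _ => ?_) h0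
        simp only [v, smul_eq_mul]
        ring
      exact Fintype.linearIndependent_iff.mp hχ _ hsum
    apply hf
    rw [LinearMap.pi_apply_eq_sum_univ]
    simp [hg]
  obtain ⟨c, hc⟩ := (Finsupp.mem_span_range_iff_exists_finsupp).mp hmem
  refine ⟨c, fun q => ?_⟩
  have := congrFun hc q
  simp only [Finsupp.sum, Finset.sum_apply, Pi.smul_apply, smul_eq_mul] at this ⊢
  rw [this, Pi.single_apply]

end LinearAlgebra

variable {M : Type} [AddCommGroup M] {act : GalQ → M → M} {V : ValuationSubring Qb} {ℓ : ℕ}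

theorem conjFun_eq_of_inv_mul_mem (hact : IsContAddAction act) {y : M → Qb} {S : Subgroup GalQ}
    (hy : ∀ s ∈ S, conjFun act s y = y) {a b : GalQ} (h : a⁻¹ * b ∈ S) :
    conjFun act b y = conjFun act a y := by
  have hb : b = a * (a⁻¹ * b) := by group
  calc conjFun act b y = conjFun act (a * (a⁻¹ * b)) y := by rw [← hb]
    _ = conjFun act a (conjFun act (a⁻¹ * b) y) := conjFun_mul hact _ _ _
    _ = conjFun act a y := by rw [hy _ h]

/-- The sum over the cosets of `S` of the conjugates of an `S`-invariant function is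
equivariant. -/
theorem isEquivariant_orbit_sum (hact : IsContAddAction act) (S : Subgroup GalQ)
    [Fintype (GalQ ⧸ S)] {y : M → Qb} (hy : ∀ s ∈ S, conjFun act s y = y)
    (rep : GalQ ⧸ S → GalQ) (hrep : ∀ q, (rep q : GalQ ⧸ S) = q) :
    IsEquivariant act (∑ q : GalQ ⧸ S, conjFun act (rep q) y) := by
  rw [isEquivariant_iff hact]
  intro τ
  rw [conjFun_sum]
  have h1 : ∀ q : GalQ ⧸ S,
      conjFun act τ (conjFun act (rep q) y) = conjFun act (rep (τ • q)) y := by
    intro q
    rw [← conjFun_mul hact]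
    apply conjFun_eq_of_inv_mul_mem hact hy
    rw [← QuotientGroup.eq, hrep]
    conv_lhs => rw [← hrep q]
    rfl
  simp_rw [h1]
  exact Equiv.sum_comp (MulAction.toPerm τ) (fun q => conjFun act (rep q) y)

theorem smul_mem_maximalIdeal_smul (O : LocalOrder V M act) {μ : Qb} (hμ : μ ∈ V.nonunits)
    {b : M → Qb} (hb : b ∈ O.B) :
    μ • b ∈ (IsLocalRing.maximalIdeal V) • Subalgebra.toSubmodule O.B := by
  have hμV : μ ∈ V := mem_of_mem_nonunits V hμ
  have h1 : (⟨μ, hμV⟩ : V) ∈ IsLocalRing.maximalIdeal V := by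
    rw [← ValuationSubring.coe_mem_nonunits_iff]
    exact hμ
  have h2 := Submodule.smul_mem_smul h1 (show b ∈ Subalgebra.toSubmodule O.B from hb)
  rwa [smul_fun_eq] at h2

theorem pow_sub_one_mem_nonunits {u : Qb} (huV : u ∈ V) (hu : u - 1 ∈ V.nonunits) (n : ℕ) :
    u ^ n - 1 ∈ V.nonunits := by
  have h : u ^ n - 1 = (u - 1) * ∑ i ∈ Finset.range n, u ^ i := by
    rw [mul_comm, geom_sum_mul]
  rw [h]
  exact nonunits_mul_mem V hu (V.toSubring.sum_mem fun i _ => V.toSubring.pow_mem huV i)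

/-- (KL1) the "decomposition part" of an orbit trace lies in `span(equivariant) + 𝔪 B`. -/
theorem trace_mem [Finite M] (hℓ : ℓ.Prime) (hV : (ℓ : Qb) ∈ V.nonunits)
    (hact : IsContAddAction act) (O : LocalOrder V M act) {x : M → Qb} (hxB : x ∈ O.B)
    (S : Subgroup GalQ) [Fintype (GalQ ⧸ S)] (hSx : ∀ s ∈ S, conjFun act s x = x)
    (F : IntermediateField ℚ Qb) (hFS : F.fixingSubgroup = S)
    (rep : GalQ ⧸ S → GalQ) (hrep : ∀ q, (rep q : GalQ ⧸ S) = q)
    (good : GalQ ⧸ S → Prop) [DecidablePred good]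
    (hgood : ∀ q, good q ↔ ∃ σ, IsDecompAt V σ ∧ (σ : GalQ ⧸ S) = q)
    (hrepD : ∀ q, good q → IsDecompAt V (rep q))
    {θ : Qb} (hθV : θ ∈ V) (hθF : θ ∈ F) :
    (∑ q : GalQ ⧸ S, if good q then (rep q θ) • conjFun act (rep q) x else 0) ∈
      Submodule.span V O.equivariantElements ⊔
        (IsLocalRing.maximalIdeal V) • Subalgebra.toSubmodule O.B := by
  classical
  obtain ⟨d, hdV, hd0, hd⟩ := exists_conductor O
  have hℓ0 : (ℓ : Qb) ≠ 0 := by
    exact_mod_cast hℓ.ne_zero
  have hfixF : ∀ a ∈ F, ∀ s ∈ S, s a = a := by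
    intro a ha s hs
    have hs' : s ∈ F.fixingSubgroup := hFS ▸ hs
    exact hs' ⟨a, ha⟩
  -- bad cosets
  have hbad : ∀ i : {q : GalQ ⧸ S // ¬ good q}, ∀ ρ ∈ F.fixingSubgroup,
      ¬ IsDecompAt V (rep i.1 * ρ) := by
    intro i ρ hρ hdec
    apply i.2
    rw [hgood]
    refine ⟨rep i.1 * ρ, hdec, ?_⟩
    have hρS : ρ ∈ S := hFS ▸ hρ
    have h1 : ((rep i.1 * ρ : GalQ) : GalQ ⧸ S) = ((rep i.1 : GalQ) : GalQ ⧸ S) := by
      rw [QuotientGroup.eq]
      have : (rep i.1 * ρ)⁻¹ * rep i.1 = ρ⁻¹ := by group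
      rw [this]
      exact S.inv_mem hρS
    rw [h1, hrep]
  obtain ⟨u, huF, huV, hu1, hubad⟩ :=
    exists_approx F hℓ hV (fun i : {q : GalQ ⧸ S // ¬ good q} => rep i.1) hbad
  -- the exponent
  have hN : ∀ᶠ n in Filter.atTop, ∀ i : {q : GalQ ⧸ S // ¬ good q}, ∀ m : M,
      (rep i.1 u) ^ n * ((rep i.1) (θ * x (act (rep i.1)⁻¹ m)) / ((ℓ : Qb) * d)) ∈ V := by
    rw [Filter.eventually_all]
    intro i
    rw [Filter.eventually_all]
    intro m
    exact eventually_pow_mul_mem V hℓ hV (hubad i) _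
  obtain ⟨n, hn⟩ := hN.exists
  -- the multiplier
  have hcS : ∀ s ∈ S, s (θ * u ^ n) = θ * u ^ n := by
    intro s hs
    have hs' : s ∈ F.fixingSubgroup := hFS ▸ hs
    rw [map_mul, map_pow, hfixF θ hθF s hs, huF s hs']
  have hcθ : θ * u ^ n - θ ∈ V.nonunits := by
    have : θ * u ^ n - θ = (u ^ n - 1) * θ := by ring
    rw [this]
    exact nonunits_mul_mem V (pow_sub_one_mem_nonunits huV hu1 n) hθV
  have hy : ∀ s ∈ S, conjFun act s ((θ * u ^ n) • x) = (θ * u ^ n) • x := by
    intro s hs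
    rw [conjFun_smul, hcS s hs, hSx s hs]
  have heq := isEquivariant_orbit_sum hact S hy rep hrep
  -- termwise comparison
  have hterm : ∀ q : GalQ ⧸ S, conjFun act (rep q) ((θ * u ^ n) • x)
      - (if good q then (rep q θ) • conjFun act (rep q) x else 0) ∈
        (IsLocalRing.maximalIdeal V) • Subalgebra.toSubmodule O.B := by
    intro q
    by_cases hq : good q
    · rw [if_pos hq, conjFun_smul, ← sub_smul]
      refine smul_mem_maximalIdeal_smul O ?_ (O.stable _ (hrepD q hq) x hxB)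
      rw [← map_sub]
      exact (IsDecompAt.map_nonunits (hrepD q hq)).mpr hcθ
    · rw [if_neg hq, sub_zero]
      have hform : conjFun act (rep q) ((θ * u ^ n) • x) = (ℓ : Qb) • (d • fun m =>
          (rep q u) ^ n * ((rep q) (θ * x (act (rep q)⁻¹ m)) / ((ℓ : Qb) * d))) := by
        funext m
        simp only [conjFun_apply, Pi.smul_apply, smul_eq_mul, map_mul, map_pow]
        field_simp
      rw [hform]
      exact smul_mem_maximalIdeal_smul O hV (hd _ (fun m => hn ⟨q, hq⟩ m))
  have hdiff : (∑ q : GalQ ⧸ S, conjFun act (rep q) ((θ * u ^ n) • x))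
      - (∑ q : GalQ ⧸ S, if good q then (rep q θ) • conjFun act (rep q) x else 0) ∈
        (IsLocalRing.maximalIdeal V) • Subalgebra.toSubmodule O.B := by
    rw [← Finset.sum_sub_distrib]
    exact Submodule.sum_mem _ fun q _ => hterm q
  have htB : (∑ q : GalQ ⧸ S, if good q then (rep q θ) • conjFun act (rep q) x else 0)
      ∈ O.B := by
    refine Subalgebra.sum_mem _ fun q _ => ?_
    split_ifs with hq
    · exact smul_mem_of_mem O ((hrepD q hq θ).mpr hθV) (O.stable _ (hrepD q hq) x hxB)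
    · exact O.B.zero_mem
  have hmB_le : (IsLocalRing.maximalIdeal V) • Subalgebra.toSubmodule O.B
      ≤ Subalgebra.toSubmodule O.B := Submodule.smul_le_right
  have hhB : (∑ q : GalQ ⧸ S, conjFun act (rep q) ((θ * u ^ n) • x)) ∈ O.B := by
    have h := O.B.add_mem (hmB_le hdiff) htB
    rwa [sub_add_cancel] at h
  have hhN : (∑ q : GalQ ⧸ S, conjFun act (rep q) ((θ * u ^ n) • x)) ∈
      Submodule.span V O.equivariantElements := Submodule.subset_span ⟨hhB, heq⟩
  have hfin := Submodule.sub_mem _ (Submodule.mem_sup_left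
    (T := (IsLocalRing.maximalIdeal V) • Subalgebra.toSubmodule O.B) hhN)
    (Submodule.mem_sup_right (S := Submodule.span V O.equivariantElements) hdiff)
  rwa [sub_sub_cancel] at hfin

/-- (KL2) two elements of the decomposition group inducing the same residue character on
`V ∩ F` lie in the same coset of `S = Gal(Q̄/F)`, provided `S` contains the inertia group. -/
theorem coset_eq_of_residue_eq (hℓ : ℓ.Prime) (hV : (ℓ : Qb) ∈ V.nonunits)
    (S : Subgroup GalQ) (F : IntermediateField ℚ Qb) (hFS : F.fixingSubgroup = S)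
    (hIS : ∀ ι : GalQ, IsInertiaAt V ι → ι ∈ S)
    {σ σ' : GalQ} (hσ : IsDecompAt V σ) (hσ' : IsDecompAt V σ')
    (h : ∀ θ ∈ F, θ ∈ V → σ θ - σ' θ ∈ V.nonunits) :
    (σ : GalQ ⧸ S) = (σ' : GalQ ⧸ S) := by
  have hσ'inv : IsDecompAt V σ'⁻¹ := IsDecompAt.inv hσ'
  have hρ0 : IsDecompAt V (σ'⁻¹ * σ) := IsDecompAt.mul hσ'inv hσ
  have hρ0F : ∀ θ ∈ F, θ ∈ V → (σ'⁻¹ * σ) θ - θ ∈ V.nonunits := by
    intro θ hθF hθV
    have h1 := h θ hθF hθV
    have h2 : (σ'⁻¹ * σ) θ - θ = σ'⁻¹ (σ θ - σ' θ) := by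
      rw [map_sub]
      congr 1
      exact (σ'.symm_apply_apply θ).symm
    rw [h2]
    exact (IsDecompAt.map_nonunits hσ'inv).mpr h1
  obtain ⟨ρ, hρF, hρV, hρ⟩ := exists_residue_eq (F := F) hℓ hV (σ'⁻¹ * σ)
    ((isDecompAt_iff_smul_eq _).mp hρ0) hρ0F
  have hρD : IsDecompAt V ρ := (isDecompAt_iff_smul_eq _).mpr hρV
  have hρinv : IsDecompAt V ρ⁻¹ := IsDecompAt.inv hρD
  have hι : IsInertiaAt V (ρ⁻¹ * (σ'⁻¹ * σ)) := by
    intro a ha
    have h1 := hρ a ha
    have h2 : (ρ⁻¹ * (σ'⁻¹ * σ)) a - a = ρ⁻¹ ((σ'⁻¹ * σ) a - ρ a) := by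
      rw [map_sub]
      congr 1
      exact (ρ.symm_apply_apply a).symm
    rw [h2]
    refine (IsDecompAt.map_nonunits hρinv).mpr ?_
    have := nonunits_neg_mem V h1
    rwa [neg_sub] at this
  have hιS := hIS _ hι
  have hρS : ρ ∈ S := hFS ▸ hρF
  have hmem : σ'⁻¹ * σ ∈ S := by
    have := S.mul_mem hρS hιS
    rwa [mul_inv_cancel_left] at this
  symm
  rw [QuotientGroup.eq]
  exact hmem

/-- Auxiliary form of the key lemma with all choices made. -/
theorem key_lemma_aux [Finite M] (hℓ : ℓ.Prime) (hV : (ℓ : Qb) ∈ V.nonunits)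
    (hact : IsContAddAction act) (O : LocalOrder V M act) {x : M → Qb} (hxB : x ∈ O.B)
    (S : Subgroup GalQ) [Fintype (GalQ ⧸ S)] (hSx : ∀ s ∈ S, conjFun act s x = x)
    (F : IntermediateField ℚ Qb) (hFS : F.fixingSubgroup = S)
    (hIS : ∀ ι : GalQ, IsInertiaAt V ι → ι ∈ S)
    (rep : GalQ ⧸ S → GalQ) (hrep : ∀ q, (rep q : GalQ ⧸ S) = q)
    (hrepD : ∀ q, (∃ τ, IsDecompAt V τ ∧ (τ : GalQ ⧸ S) = q) → IsDecompAt V (rep q)) :
    x ∈ Submodule.span V O.equivariantElements ⊔
        (IsLocalRing.maximalIdeal V) • Subalgebra.toSubmodule O.B := by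
  classical
  let good : GalQ ⧸ S → Prop := fun q => ∃ τ, IsDecompAt V τ ∧ (τ : GalQ ⧸ S) = q
  have hgood : ∀ q, good q ↔ ∃ σ, IsDecompAt V σ ∧ (σ : GalQ ⧸ S) = q := fun q => Iff.rfl
  -- the monoid `V ∩ F`
  let Vs : Submonoid Qb :=
    { carrier := {θ | θ ∈ V ∧ θ ∈ F}
      one_mem' := ⟨V.one_mem, F.one_mem⟩
      mul_mem' := fun ha hb => ⟨V.mul_mem _ _ ha.1 hb.1, F.mul_mem ha.2 hb.2⟩ }
  -- the residue characters
  let χ : {q : GalQ ⧸ S // good q} → (Vs →* IsLocalRing.ResidueField V) := fun q =>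
    { toFun := fun θ => IsLocalRing.residue V ⟨rep q.1 θ.1, (hrepD q.1 q.2 θ.1).mpr θ.2.1⟩
      map_one' := by
        have : (⟨rep q.1 ((1 : Vs) : Qb), (hrepD q.1 q.2 _).mpr (1 : Vs).2.1⟩ : V) = 1 := by
          apply Subtype.ext
          simp
        rw [this, map_one]
      map_mul' := fun a b => by
        have : (⟨rep q.1 ((a * b : Vs) : Qb), (hrepD q.1 q.2 _).mpr (a * b : Vs).2.1⟩ : V)
            = ⟨rep q.1 a.1, (hrepD q.1 q.2 _).mpr a.2.1⟩
              * ⟨rep q.1 b.1, (hrepD q.1 q.2 _).mpr b.2.1⟩ := by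
          apply Subtype.ext
          simp
        rw [this, map_mul] }
  have hχapp : ∀ (q : {q : GalQ ⧸ S // good q}) (θ : Vs),
      χ q θ = IsLocalRing.residue V ⟨rep q.1 θ.1, (hrepD q.1 q.2 θ.1).mpr θ.2.1⟩ := fun _ _ => rfl
  have hres : ∀ (a b : V), IsLocalRing.residue V a = IsLocalRing.residue V b →
      (a : Qb) - (b : Qb) ∈ V.nonunits := by
    intro a b hab
    have h1 : IsLocalRing.residue V (a - b) = 0 := by rw [map_sub, hab, sub_self]
    rw [IsLocalRing.residue_eq_zero_iff] at h1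
    have h2 := (ValuationSubring.coe_mem_nonunits_iff).mpr h1
    simpa using h2
  have hχinj : Function.Injective χ := by
    intro q q' hqq
    apply Subtype.ext
    rw [← hrep q.1, ← hrep q'.1]
    refine coset_eq_of_residue_eq hℓ hV S F hFS hIS (hrepD q.1 q.2) (hrepD q'.1 q'.2) ?_
    intro θ hθF hθV
    have h1 : χ q ⟨θ, hθV, hθF⟩ = χ q' ⟨θ, hθV, hθF⟩ := by rw [hqq]
    rw [hχapp, hχapp] at h1
    exact hres _ _ h1
  have hind : LinearIndependent (IsLocalRing.ResidueField V)
      (fun q : {q : GalQ ⧸ S // good q} => (χ q : Vs → IsLocalRing.ResidueField V)) :=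
    (linearIndependent_monoidHom Vs (IsLocalRing.ResidueField V)).comp χ hχinj
  let q0 : {q : GalQ ⧸ S // good q} := ⟨((1 : GalQ) : GalQ ⧸ S), ⟨1, isDecompAt_one, rfl⟩⟩
  obtain ⟨cf, hcf⟩ := exists_finsupp_of_linearIndependent
    (fun q θ => χ q θ) hind q0
  -- lift the coefficients
  have hsurj : ∀ θ : Vs, ∃ a : V, IsLocalRing.residue V a = cf θ := fun θ =>
    IsLocalRing.residue_surjective (cf θ)
  choose a ha using hsurj
  -- the traces
  have htr : ∀ θ : Vs,
      (∑ q : GalQ ⧸ S, if good q then (rep q θ.1) • conjFun act (rep q) x else 0) ∈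
        Submodule.span V O.equivariantElements ⊔
          (IsLocalRing.maximalIdeal V) • Subalgebra.toSubmodule O.B := fun θ =>
    trace_mem hℓ hV hact O hxB S hSx F hFS rep hrep good hgood hrepD θ.2.1 θ.2.2
  have hyP : (∑ θ ∈ cf.support, a θ •
      (∑ q : GalQ ⧸ S, if good q then (rep q θ.1) • conjFun act (rep q) x else 0)) ∈
        Submodule.span V O.equivariantElements ⊔
          (IsLocalRing.maximalIdeal V) • Subalgebra.toSubmodule O.B :=
    Submodule.sum_mem _ fun θ _ => Submodule.smul_mem _ _ (htr θ)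
  -- the coefficient of each good coset
  have hcoef : ∀ q : {q : GalQ ⧸ S // good q},
      (∑ θ ∈ cf.support, ((a θ : V) : Qb) * rep q.1 θ.1) - (if q = q0 then 1 else 0)
        ∈ V.nonunits := by
    intro q
    have hmemV : (∑ θ ∈ cf.support, ((a θ : V) : Qb) * rep q.1 θ.1) ∈ V :=
      V.toSubring.sum_mem fun θ _ => V.mul_mem _ _ (a θ).2 ((hrepD q.1 q.2 θ.1).mpr θ.2.1)
    have hone : (if q = q0 then (1 : Qb) else 0) ∈ V := by
      split_ifs
      · exact V.one_mem
      · exact V.zero_mem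
    have h1 : IsLocalRing.residue V ⟨_, hmemV⟩ = IsLocalRing.residue V ⟨_, hone⟩ := by
      have e1 : (⟨_, hmemV⟩ : V) = ∑ θ ∈ cf.support,
          a θ * ⟨rep q.1 θ.1, (hrepD q.1 q.2 θ.1).mpr θ.2.1⟩ := by
        apply Subtype.ext
        push_cast
        rfl
      have e2 : (⟨_, hone⟩ : V) = if q = q0 then 1 else 0 := by
        apply Subtype.ext
        split_ifs <;> rfl
      rw [e1, e2, map_sum]
      have := hcf q
      simp only [Finsupp.sum] at this
      rw [apply_ite (IsLocalRing.residue V), map_one, map_zero, ← this]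
      refine Finset.sum_congr rfl fun θ _ => ?_
      rw [map_mul, ha θ, hχapp]
    exact hres _ _ h1
  -- `rep q0` fixes `x`
  have hx0 : conjFun act (rep q0.1) x = x := by
    apply hSx
    have := hrep q0.1
    have h2 : ((rep q0.1 : GalQ) : GalQ ⧸ S) = ((1 : GalQ) : GalQ ⧸ S) := this
    rw [QuotientGroup.eq] at h2
    have h3 := S.inv_mem h2
    simpa using h3
  -- compare
  have hyx : (∑ θ ∈ cf.support, a θ •
      (∑ q : GalQ ⧸ S, if good q then (rep q θ.1) • conjFun act (rep q) x else 0)) - x ∈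
        (IsLocalRing.maximalIdeal V) • Subalgebra.toSubmodule O.B := by
    have hx' : x = ∑ q : GalQ ⧸ S, if q = q0.1 then conjFun act (rep q) x else 0 := by
      rw [Finset.sum_ite_eq' Finset.univ q0.1, if_pos (Finset.mem_univ _), hx0]
    have hsum : (∑ θ ∈ cf.support, a θ •
        (∑ q : GalQ ⧸ S, if good q then (rep q θ.1) • conjFun act (rep q) x else 0))
        = ∑ q : GalQ ⧸ S, if good q then
            (∑ θ ∈ cf.support, ((a θ : V) : Qb) * rep q θ.1) • conjFun act (rep q) x else 0 := by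
      simp_rw [Finset.smul_sum]
      rw [Finset.sum_comm]
      refine Finset.sum_congr rfl fun q _ => ?_
      split_ifs with hq
      · rw [Finset.sum_smul]
        refine Finset.sum_congr rfl fun θ _ => ?_
        rw [smul_fun_eq, smul_smul]
      · simp
    rw [hsum]
    suffices key : (∑ q : GalQ ⧸ S, if good q then
        (∑ θ ∈ cf.support, ((a θ : V) : Qb) * rep q θ.1) • conjFun act (rep q) x else 0)
        - (∑ q : GalQ ⧸ S, if q = q0.1 then conjFun act (rep q) x else 0) ∈
          (IsLocalRing.maximalIdeal V) • Subalgebra.toSubmodule O.B by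
      rwa [← hx'] at key
    rw [← Finset.sum_sub_distrib]
    refine Submodule.sum_mem _ fun q _ => ?_
    by_cases hq : good q
    · rw [if_pos hq]
      have hc := hcoef ⟨q, hq⟩
      have hstab := O.stable _ (hrepD q hq) x hxB
      by_cases hq0 : q = q0.1
      · have hq0' : (⟨q, hq⟩ : {q : GalQ ⧸ S // good q}) = q0 := Subtype.ext hq0
        rw [if_pos hq0]
        rw [if_pos hq0'] at hc
        have := smul_mem_maximalIdeal_smul O hc hstab
        rwa [sub_smul, one_smul] at this
      · have hq0' : ¬ (⟨q, hq⟩ : {q : GalQ ⧸ S // good q}) = q0 := fun h =>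
          hq0 (congrArg Subtype.val h)
        rw [if_neg hq0, sub_zero]
        rw [if_neg hq0', sub_zero] at hc
        exact smul_mem_maximalIdeal_smul O hc hstab
    · have hq0 : ¬ q = q0.1 := fun h => hq (h ▸ q0.2)
      rw [if_neg hq, if_neg hq0, sub_zero]
      exact Submodule.zero_mem _
  have hfin := Submodule.sub_mem _ hyP (Submodule.mem_sup_right
    (S := Submodule.span V O.equivariantElements) hyx)
  rwa [sub_sub_cancel] at hfin

/-- The key lemma: an inertia-equivariant element of a local order lies in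
`span(equivariant elements) + 𝔪 B`. -/
theorem key_lemma [Finite M] (hℓ : ℓ.Prime) (hV : (ℓ : Qb) ∈ V.nonunits)
    (hact : IsContAddAction act) (O : LocalOrder V M act) {x : M → Qb} (hxB : x ∈ O.B)
    (hxI : IsInertiaEquivariant V act x) :
    x ∈ Submodule.span V O.equivariantElements ⊔
        (IsLocalRing.maximalIdeal V) • Subalgebra.toSubmodule O.B := by
  classical
  -- the stabiliser of `x`, an open subgroup containing inertia
  obtain ⟨E, hEfin, hES⟩ := exists_finiteLevel hact x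
  have hSopen : IsOpen ((stab hact x : Subgroup GalQ) : Set GalQ) :=
    Subgroup.isOpen_mono hES E.fixingSubgroup_isOpen
  have hSclosed : IsClosed ((stab hact x : Subgroup GalQ) : Set GalQ) :=
    Subgroup.isClosed_of_isOpen _ hSopen
  haveI : Finite (GalQ ⧸ stab hact x) := Subgroup.quotient_finite_of_isOpen _ hSopen
  haveI : Fintype (GalQ ⧸ stab hact x) := Fintype.ofFinite _
  have hFS : (IntermediateField.fixedField (stab hact x)).fixingSubgroup = stab hact x :=
    InfiniteGalois.fixingSubgroup_fixedField ⟨stab hact x, hSclosed⟩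
  have hIS : ∀ ι : GalQ, IsInertiaAt V ι → ι ∈ stab hact x := fun ι hι =>
    conjFun_eq_of_inertiaEquivariant hact hxI hι
  have hSx : ∀ s ∈ stab hact x, conjFun act s x = x := fun s hs => hs
  -- representatives
  have hrepex : ∀ q : GalQ ⧸ stab hact x, ∃ σ : GalQ, (σ : GalQ ⧸ stab hact x) = q ∧
      ((∃ τ, IsDecompAt V τ ∧ (τ : GalQ ⧸ stab hact x) = q) → IsDecompAt V σ) := by
    intro q
    by_cases hq : ∃ τ, IsDecompAt V τ ∧ (τ : GalQ ⧸ stab hact x) = q
    · obtain ⟨σ, hσ, rfl⟩ := hq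
      exact ⟨σ, rfl, fun _ => hσ⟩
    · exact ⟨q.out, QuotientGroup.out_eq' q, fun h => absurd h hq⟩
  choose rep hrep hrepD using hrepex
  exact key_lemma_aux hℓ hV hact O hxB (stab hact x) hSx
    (IntermediateField.fixedField (stab hact x)) hFS hIS rep hrep hrepD

/-- **Node UB**: in a local order the `Gal(Q̄/Q)`-equivariant elements span. -/
theorem spanningStatement : SpanningStatement := by
  intro ℓ hℓ M _ _ act hact V hV O
  refine Submodule.le_of_le_smul_of_le_jacobson_bot O.fg
    (IsLocalRing.maximalIdeal_le_jacobson ⊥) ?_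
  refine le_trans O.span_inertia ?_
  rw [Submodule.span_le]
  rintro x ⟨hxB, hxI⟩
  exact key_lemma hℓ.out hV hact O hxB hxI

end Fermat.Agent.S19.Unr.H992

end
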