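import Fermat.Agent.S19.Unr.H992.Closure
import Fermat.Agent.S19.Unr.H992.Spanning
import Fermat.Agent.S19.H859.UC

/-!
# Cell A3 (S19) — node UNR closed

`unrStatement : Fermat.Agent.S19.UnrStatement` (frozen in `Fermat/Agent/S19/Spec.lean`):
local coordinates at ONE place above `ℓ`, equivariant under inertia only, give global
Galois-equivariant integral coordinates.

* UA `closureStatement`  (helper992, `Closure.lean`),
* UB `spanningStatement` (helper992, `Spanning.lean`; second proof: helper859 `UBSpan.lean`),
* UC `coeffStatement`    (helper859, `S19/H859/UC.lean`; second proof: helper619).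
-/

set_option autoImplicit false

namespace Fermat.Agent.S19.Unr.H992

/-- **UNR** (unramified descent). -/
theorem unrStatement : Fermat.Agent.S19.UnrStatement :=
  Fermat.Agent.S19.Unr.unrStatement_of_nodes closureStatement spanningStatement
    Fermat.Agent.S19.H859.coeffStatement

end Fermat.Agent.S19.Unr.H992
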