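import Fermat.Agent.S19.Unr.Spec
import Fermat.Agent.S14.H714.Trans

/-!
# UNR / node UB (helper992) — base lemmas

* §1 `conjFun` API, the stabiliser `stab`, finite level (`exists_finiteLevel`);
* §2 valuation subrings of `Q̄` above `ℓ` are archimedean (`eventually_pow_mul_mem`);
* §3 the conductor of a local order (`exists_conductor`);
* §4 approximation (`exists_approx`): an algebraic integer of `F`, `≡ 1` at `V` and in the maximal
  ideal at finitely many places outside the `Gal(Q̄/F)`-orbit of `V`.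
-/

set_option autoImplicit false
set_option linter.unusedSectionVars false
set_option linter.style.haveILetI false

noncomputable section

namespace Fermat.Agent.S19.Unr.H992

/-! ## §1 the semilinear action on functions -/

section


open Fermat.Agent.S19 Fermat.Agent.S19.Unr

variable {M : Type} [AddCommGroup M] {act : GalQ → M → M}

theorem act_inv_act (hact : IsContAddAction act) (σ : GalQ) (m : M) :
    act σ⁻¹ (act σ m) = m := by
  rw [← hact.act_mul, inv_mul_cancel, hact.act_one]

theorem act_act_inv (hact : IsContAddAction act) (σ : GalQ) (m : M) :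
    act σ (act σ⁻¹ m) = m := by
  rw [← hact.act_mul, mul_inv_cancel, hact.act_one]

@[simp] theorem conjFun_apply (σ : GalQ) (h : M → Qb) (m : M) :
    conjFun act σ h m = σ (h (act σ⁻¹ m)) := rfl

theorem conjFun_one (hact : IsContAddAction act) (h : M → Qb) : conjFun act 1 h = h := by
  funext m
  simp [conjFun, hact.act_one]

theorem conjFun_mul (hact : IsContAddAction act) (σ τ : GalQ) (h : M → Qb) :
    conjFun act (σ * τ) h = conjFun act σ (conjFun act τ h) := by
  funext m
  simp only [conjFun, mul_inv_rev, hact.act_mul]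
  rfl

theorem conjFun_add (σ : GalQ) (f g : M → Qb) :
    conjFun act σ (f + g) = conjFun act σ f + conjFun act σ g := by
  funext m
  simp [conjFun]

theorem conjFun_zero (σ : GalQ) : conjFun act σ (0 : M → Qb) = 0 := by
  funext m
  simp [conjFun]

theorem conjFun_mul_fun (σ : GalQ) (f g : M → Qb) :
    conjFun act σ (f * g) = conjFun act σ f * conjFun act σ g := by
  funext m
  simp [conjFun]

theorem conjFun_smul (σ : GalQ) (c : Qb) (f : M → Qb) :
    conjFun act σ (c • f) = σ c • conjFun act σ f := by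
  funext m
  simp [conjFun]

theorem conjFun_sum {ι : Type*} (σ : GalQ) (s : Finset ι) (f : ι → M → Qb) :
    conjFun act σ (∑ i ∈ s, f i) = ∑ i ∈ s, conjFun act σ (f i) := by
  classical
  induction s using Finset.induction_on with
  | empty => simp [conjFun_zero]
  | insert a s ha ih => rw [Finset.sum_insert ha, Finset.sum_insert ha, conjFun_add, ih]

theorem isEquivariant_iff (hact : IsContAddAction act) (h : M → Qb) :
    IsEquivariant act h ↔ ∀ σ : GalQ, conjFun act σ h = h := by
  constructor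
  · intro he σ
    funext m
    have := he σ (act σ⁻¹ m)
    rw [act_act_inv hact] at this
    exact this.symm
  · intro hc σ m
    have := congrFun (hc σ) (act σ m)
    simp only [conjFun_apply, act_inv_act hact] at this
    exact this.symm

theorem conjFun_eq_of_inertiaEquivariant (hact : IsContAddAction act) {V : ValuationSubring Qb}
    {h : M → Qb} (hh : IsInertiaEquivariant V act h) {σ : GalQ} (hσ : IsInertiaAt V σ) :
    conjFun act σ h = h := by
  funext m
  have := hh σ hσ (act σ⁻¹ m)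
  rw [act_act_inv hact] at this
  exact this.symm

/-- The stabiliser of `x` for the semilinear action. -/
def stab (hact : IsContAddAction act) (x : M → Qb) : Subgroup GalQ where
  carrier := {σ | conjFun act σ x = x}
  mul_mem' := by
    intro a b ha hb
    show conjFun act (a * b) x = x
    rw [conjFun_mul hact, show conjFun act b x = x from hb]
    exact ha
  one_mem' := conjFun_one hact x
  inv_mem' := by
    intro a ha
    show conjFun act a⁻¹ x = x
    have h1 : conjFun act a⁻¹ (conjFun act a x) = x := by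
      rw [← conjFun_mul hact, inv_mul_cancel, conjFun_one hact]
    rw [show conjFun act a x = x from ha] at h1
    exact h1

theorem mem_stab (hact : IsContAddAction act) (x : M → Qb) (σ : GalQ) :
    σ ∈ stab hact x ↔ conjFun act σ x = x := Iff.rfl

/-- Finite level: a function on a finite `M` is fixed by `Gal(Q̄/E)` for a number field `E`. -/
theorem exists_finiteLevel [Finite M] (hact : IsContAddAction act) (x : M → Qb) :
    ∃ E : IntermediateField ℚ Qb, FiniteDimensional ℚ E ∧ E.fixingSubgroup ≤ stab hact x := by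
  classical
  choose L hLfin hL using hact.cont
  let E : IntermediateField ℚ Qb := ⨆ m : M, (L m ⊔ IntermediateField.adjoin ℚ {x m})
  have hfin : ∀ m : M, FiniteDimensional ℚ ↥(L m ⊔ IntermediateField.adjoin ℚ {x m}) := by
    intro m
    haveI := hLfin m
    haveI : FiniteDimensional ℚ ↥(IntermediateField.adjoin ℚ {x m}) :=
      IntermediateField.adjoin.finiteDimensional (Algebra.IsIntegral.isIntegral (x m))
    exact IntermediateField.finiteDimensional_sup _ _
  haveI : FiniteDimensional ℚ E := IntermediateField.finiteDimensional_iSup_of_finite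
  refine ⟨E, inferInstance, ?_⟩
  intro σ hσ
  have hσ' : ∀ a ∈ E, σ a = a := fun a ha => hσ ⟨a, ha⟩
  have hLE : ∀ m, L m ≤ E := fun m => le_trans le_sup_left (le_iSup (fun m : M =>
    L m ⊔ IntermediateField.adjoin ℚ {x m}) m)
  have hxE : ∀ m, x m ∈ E := fun m =>
    (le_trans le_sup_right (le_iSup (fun m : M => L m ⊔ IntermediateField.adjoin ℚ {x m}) m))
      (IntermediateField.mem_adjoin_simple_self ℚ (x m))
  have hσinv : ∀ a ∈ E, σ⁻¹ a = a := by
    intro a ha
    have := hσ' a ha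
    calc σ⁻¹ a = σ⁻¹ (σ a) := by rw [this]
      _ = a := by simp
  rw [mem_stab]
  funext m
  simp only [conjFun_apply]
  rw [hL m σ⁻¹ (fun a ha => hσinv a (hLE m ha)), hσ' _ (hxE m)]

end

/-! ## §2 valuation subrings above ℓ are archimedean -/

section


open Fermat.Agent.S19 Fermat.Agent.S19.Unr Fermat.Agent.S14.H714 Polynomial

variable (V : ValuationSubring Qb) {ℓ : ℕ}

theorem natCast_unit_of_not_dvd (hℓ : ℓ.Prime) (hV : (ℓ : Qb) ∈ V.nonunits) {n : ℕ}
    (hn : ¬ ℓ ∣ n) : ((n : Qb))⁻¹ ∈ V := by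
  have h1 : ¬ ((ℓ : ℤ) ∣ (n : ℤ)) := by
    intro h
    exact hn (Int.natCast_dvd_natCast.mp h)
  have h2 := intCast_not_mem_nonunits V hℓ hV h1
  have h3 := (inv_mem_of_not_mem_nonunits V h2).2
  simpa using h3

/-- (A2) bounded denominators. -/
theorem exists_pow_mul_mem (hℓ : ℓ.Prime) (hV : (ℓ : Qb) ∈ V.nonunits) (z : Qb) :
    ∃ e : ℕ, (ℓ : Qb) ^ e * z ∈ V := by
  obtain ⟨y, hy, hint⟩ := IsAlgebraic.exists_integral_multiple
    (Algebra.IsAlgebraic.isAlgebraic (R := ℤ) z)
  have hmem : (y : Qb) * z ∈ V := by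
    have := mem_of_isIntegral V hint
    rwa [zsmul_eq_mul] at this
  have hn : y.natAbs ≠ 0 := Int.natAbs_ne_zero.mpr hy
  obtain ⟨e, n', hn', hne⟩ := Nat.exists_eq_pow_mul_and_not_dvd hn ℓ hℓ.ne_one
  refine ⟨e, ?_⟩
  have hu := natCast_unit_of_not_dvd V hℓ hV hn'
  have hn'0 : (n' : Qb) ≠ 0 := by
    intro h0
    have : n' = 0 := by exact_mod_cast h0
    exact hn' (this ▸ dvd_zero ℓ)
  -- `|y| * z ∈ V`
  have habs : ((y.natAbs : ℕ) : Qb) * z ∈ V := by
    rcases Int.natAbs_eq y with h | h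
    · have : (y : Qb) = ((y.natAbs : ℕ) : Qb) := by
        have h' : (y : Qb) = (((y.natAbs : ℕ) : ℤ) : Qb) := congrArg _ h
        rwa [Int.cast_natCast] at h'
      rwa [this] at hmem
    · have : (y : Qb) = -((y.natAbs : ℕ) : Qb) := by
        have h' : (y : Qb) = ((-((y.natAbs : ℕ) : ℤ) : ℤ) : Qb) := congrArg _ h
        rwa [Int.cast_neg, Int.cast_natCast] at h'
      rw [this, neg_mul] at hmem
      have := V.neg_mem _ hmem
      rwa [neg_neg] at this
  have key : (ℓ : Qb) ^ e * z = (((y.natAbs : ℕ) : Qb) * z) * ((n' : Qb))⁻¹ := by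
    rw [hne]
    push_cast
    field_simp
  rw [key]
  exact V.mul_mem _ _ habs hu

/-- (A1) a non-unit has a power divisible by `ℓ`. -/
theorem exists_pow_eq_mul (hℓ : ℓ.Prime) (hV : (ℓ : Qb) ∈ V.nonunits) {π : Qb}
    (hπ : π ∈ V.nonunits) : ∃ (j : ℕ) (v : Qb), v ∈ V ∧ π ^ j = (ℓ : Qb) * v := by
  classical
  have hπV : π ∈ V := mem_of_mem_nonunits V hπ
  obtain ⟨p, hp0, hp⟩ := Algebra.IsAlgebraic.isAlgebraic (R := ℤ) π
  have hprim := p.isPrimitive_primPart
  have hroot : aeval π p.primPart = 0 := aeval_primPart_eq_zero hp0 hp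
  have hex : ∃ i, ¬ ((ℓ : ℤ) ∣ p.primPart.coeff i) := by
    by_contra hcon
    push Not at hcon
    have := hprim (ℓ : ℤ) ((C_dvd_iff_dvd_coeff _ _).mpr hcon)
    exact (Nat.prime_iff_prime_int.mp hℓ).not_isUnit this
  set q := p.primPart with hq
  let j := Nat.find hex
  have hj : ¬ ((ℓ : ℤ) ∣ q.coeff j) := Nat.find_spec hex
  have hlt : ∀ i < j, (ℓ : ℤ) ∣ q.coeff i := fun i hi => by
    by_contra h
    exact Nat.find_min hex hi h
  have hjn : j ≤ q.natDegree := by
    by_contra h
    push Not at h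
    rw [coeff_eq_zero_of_natDegree_lt h] at hj
    exact hj (dvd_zero _)
  -- expand
  have hsum : ∑ i ∈ Finset.range (q.natDegree + 1), ((q.coeff i : ℤ) : Qb) * π ^ i = 0 := by
    have := hroot
    rw [aeval_eq_sum_range] at this
    simpa [zsmul_eq_mul] using this
  rw [Finset.range_eq_Ico, ← Finset.sum_Ico_consecutive _ (Nat.zero_le j)
    (Nat.le_succ_of_le hjn), Finset.sum_eq_sum_Ico_succ_bot (Nat.lt_succ_of_le hjn)] at hsum
  -- the lower part
  have hlow : ∃ a ∈ V, ∑ i ∈ Finset.Ico 0 j, ((q.coeff i : ℤ) : Qb) * π ^ i = (ℓ : Qb) * a := by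
    choose! c hc using hlt
    refine ⟨∑ i ∈ Finset.Ico 0 j, ((c i : ℤ) : Qb) * π ^ i, ?_, ?_⟩
    · refine V.toSubring.sum_mem fun i _ => ?_
      exact V.mul_mem _ _ (intCast_mem V _) (V.toSubring.pow_mem hπV i)
    · rw [Finset.mul_sum]
      refine Finset.sum_congr rfl fun i hi => ?_
      have hi' : i < j := (Finset.mem_Ico.mp hi).2
      rw [hc i hi']
      push_cast
      ring
  -- the upper part
  have hup : ∃ b ∈ V, ∑ i ∈ Finset.Ico (j + 1) (q.natDegree + 1),
      ((q.coeff i : ℤ) : Qb) * π ^ i = π ^ (j + 1) * b := by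
    refine ⟨∑ i ∈ Finset.Ico (j + 1) (q.natDegree + 1),
      ((q.coeff i : ℤ) : Qb) * π ^ (i - (j + 1)), ?_, ?_⟩
    · refine V.toSubring.sum_mem fun i _ => ?_
      exact V.mul_mem _ _ (intCast_mem V _) (V.toSubring.pow_mem hπV _)
    · rw [Finset.mul_sum]
      refine Finset.sum_congr rfl fun i hi => ?_
      have hi' : j + 1 ≤ i := (Finset.mem_Ico.mp hi).1
      have : π ^ i = π ^ (j + 1) * π ^ (i - (j + 1)) := by
        rw [← pow_add, Nat.add_sub_cancel' hi']
      rw [this]
      ring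
  obtain ⟨a, ha, hlow⟩ := hlow
  obtain ⟨b, hb, hup⟩ := hup
  rw [hlow, hup] at hsum
  -- `c_j + π b` is a unit
  have hunit : ((q.coeff j : ℤ) : Qb) + π * b ∉ V.nonunits := by
    intro hmem
    have h1 : π * b ∈ V.nonunits := nonunits_mul_mem V hπ hb
    have h2 := nonunits_sub_mem V hmem h1
    rw [add_sub_cancel_right] at h2
    exact intCast_not_mem_nonunits V hℓ hV hj h2
  obtain ⟨hne, hinv⟩ := inv_mem_of_not_mem_nonunits V hunit
  refine ⟨j, -a * (((q.coeff j : ℤ) : Qb) + π * b)⁻¹, ?_, ?_⟩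
  · exact V.mul_mem _ _ (V.neg_mem _ ha) hinv
  · have h3 : π ^ j * (((q.coeff j : ℤ) : Qb) + π * b) = -((ℓ : Qb) * a) := by
      have : π ^ j * (((q.coeff j : ℤ) : Qb) + π * b)
          = ((q.coeff j : ℤ) : Qb) * π ^ j + π ^ (j + 1) * b := by ring
      rw [this]
      linear_combination hsum
    field_simp
    linear_combination h3

/-- (ARCH) powers of a non-unit eventually absorb any denominator. -/
theorem eventually_pow_mul_mem (hℓ : ℓ.Prime) (hV : (ℓ : Qb) ∈ V.nonunits) {π : Qb}
    (hπ : π ∈ V.nonunits) (z : Qb) : ∀ᶠ N in Filter.atTop, π ^ N * z ∈ V := by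
  have hπV : π ∈ V := mem_of_mem_nonunits V hπ
  obtain ⟨j, v, hv, hj⟩ := exists_pow_eq_mul V hℓ hV hπ
  obtain ⟨e, he⟩ := exists_pow_mul_mem V hℓ hV z
  rw [Filter.eventually_atTop]
  refine ⟨j * e, fun N hN => ?_⟩
  have h1 : π ^ N = π ^ (N - j * e) * (π ^ j) ^ e := by
    rw [← pow_mul, ← pow_add, Nat.sub_add_cancel hN]
  have h2 : π ^ N * z = π ^ (N - j * e) * v ^ e * ((ℓ : Qb) ^ e * z) := by
    rw [h1, hj, mul_pow]
    ring
  rw [h2]
  exact V.mul_mem _ _ (V.mul_mem _ _ (V.toSubring.pow_mem hπV _) (V.toSubring.pow_mem hv _)) he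

end

/-! ## §3 the conductor of a local order -/

section


open Fermat.Agent.S19 Fermat.Agent.S19.Unr

variable {M : Type} [AddCommGroup M] {act : GalQ → M → M} {V : ValuationSubring Qb}

/-- Scalar multiplication by an element of `V` on a function, in terms of `Q̄`. -/
theorem smul_fun_eq (a : V) (f : M → Qb) : a • f = (a : Qb) • f := by
  funext m
  simp [Algebra.smul_def]

theorem smul_mem_of_mem (O : LocalOrder V M act) {a : Qb} (ha : a ∈ V) {f : M → Qb}
    (hf : f ∈ O.B) : a • f ∈ O.B := by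
  have := O.B.smul_mem hf (⟨a, ha⟩ : V)
  rwa [smul_fun_eq] at this

theorem const_mem (O : LocalOrder V M act) {a : Qb} (ha : a ∈ V) :
    (fun _ : M => a) ∈ O.B := by
  have := O.B.algebraMap_mem (⟨a, ha⟩ : V)
  have h2 : (algebraMap V (M → Qb)) (⟨a, ha⟩ : V) = fun _ : M => a := by
    funext m
    rfl
  rwa [h2] at this

theorem exists_conductor [Finite M] (O : LocalOrder V M act) :
    ∃ d : Qb, d ∈ V ∧ d ≠ 0 ∧ ∀ f : M → Qb, (∀ m, f m ∈ V) → d • f ∈ O.B := by
  classical
  haveI : Fintype M := Fintype.ofFinite M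
  -- separating functions
  have hsep : ∀ m m' : M, m ≠ m' → ∃ b ∈ O.B, b m ≠ b m' := by
    intro m m' hne
    by_contra hcon
    push Not at hcon
    exact hne (O.separates m m' hcon)
  -- choose them
  have hsep' : ∀ m m' : M, ∃ b : M → Qb, b ∈ O.B ∧ (m ≠ m' → b m ≠ b m') := by
    intro m m'
    by_cases h : m = m'
    · exact ⟨0, O.B.zero_mem, fun hne => absurd h hne⟩
    · obtain ⟨b, hb, hbb⟩ := hsep m m' h
      exact ⟨b, hb, fun _ => hbb⟩
  choose b hbB hb using hsep'
  -- the functions `e_m`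
  let e : M → (M → Qb) := fun m => ∏ m' ∈ Finset.univ.erase m, (b m m' - fun _ => b m m' m')
  have heB : ∀ m, e m ∈ O.B := by
    intro m
    refine Subalgebra.prod_mem _ fun m' _ => ?_
    exact O.B.sub_mem (hbB m m') (const_mem O (O.valued _ (hbB m m') m'))
  have he_apply : ∀ m m'', e m m'' = ∏ m' ∈ Finset.univ.erase m, (b m m' m'' - b m m' m') := by
    intro m m''
    simp only [e, Finset.prod_apply, Pi.sub_apply]
  have he_ne : ∀ m m'', m'' ≠ m → e m m'' = 0 := by
    intro m m'' hne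
    rw [he_apply]
    refine Finset.prod_eq_zero (i := m'') ?_ (sub_self _)
    exact Finset.mem_erase.mpr ⟨hne, Finset.mem_univ _⟩
  let dm : M → Qb := fun m => e m m
  have hdm_ne : ∀ m, dm m ≠ 0 := by
    intro m
    show e m m ≠ 0
    rw [he_apply]
    refine Finset.prod_ne_zero_iff.mpr fun m' hm' => ?_
    have hne : m ≠ m' := fun h => (Finset.mem_erase.mp hm').1 h.symm
    exact sub_ne_zero.mpr (hb m m' hne)
  have hdm_mem : ∀ m, dm m ∈ V := fun m => O.valued _ (heB m) m
  refine ⟨∏ m, dm m, ?_, ?_, ?_⟩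
  · exact V.toSubring.prod_mem fun m _ => hdm_mem m
  · exact Finset.prod_ne_zero_iff.mpr fun m _ => hdm_ne m
  · intro f hf
    have key : (∏ m, dm m) • f
        = ∑ m, (f m * ∏ m' ∈ Finset.univ.erase m, dm m') • e m := by
      funext m''
      simp only [Pi.smul_apply, smul_eq_mul, Finset.sum_apply]
      rw [Finset.sum_eq_single m'']
      · show _ = f m'' * _ * dm m''
        rw [← Finset.mul_prod_erase Finset.univ dm (Finset.mem_univ m'')]
        ring
      · intro m _ hne
        rw [he_ne m m'' (Ne.symm hne), mul_zero]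
      · intro h
        exact absurd (Finset.mem_univ _) h
    rw [key]
    refine Subalgebra.sum_mem _ fun m _ => ?_
    refine smul_mem_of_mem O ?_ (heB m)
    exact V.mul_mem _ _ (hf m) (V.toSubring.prod_mem fun m' _ => hdm_mem m')

end

/-! ## §4 approximation -/

section


open Fermat.Agent.S19 Fermat.Agent.S19.Unr Fermat.Agent.S14.H714
open scoped Pointwise

variable {V : ValuationSubring Qb} {ℓ : ℕ}

theorem isDecompAt_iff_smul_eq (σ : GalQ) : IsDecompAt V σ ↔ σ • V = V := by
  constructor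
  · intro h
    ext x
    rw [ValuationSubring.mem_pointwise_smul_iff_inv_smul_mem]
    have := h (σ⁻¹ • x)
    have h2 : σ (σ⁻¹ • x) = x := by
      show σ (σ⁻¹ x) = x
      exact σ.apply_symm_apply x
    rw [h2] at this
    exact this.symm
  · intro h a
    have h1 : σ a ∈ σ • V ↔ a ∈ V := by
      rw [ValuationSubring.mem_pointwise_smul_iff_inv_smul_mem]
      have : σ⁻¹ • σ a = a := by
        show σ⁻¹ (σ a) = a
        exact σ.symm_apply_apply a
      rw [this]
    rw [h] at h1
    exact h1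

theorem IsDecompAt.inv {σ : GalQ} (h : IsDecompAt V σ) : IsDecompAt V σ⁻¹ := by
  intro a
  have := h (σ⁻¹ a)
  have h2 : σ (σ⁻¹ a) = a := σ.apply_symm_apply a
  rw [h2] at this
  exact this.symm

theorem IsDecompAt.mul {σ τ : GalQ} (h : IsDecompAt V σ) (h' : IsDecompAt V τ) :
    IsDecompAt V (σ * τ) := by
  intro a
  show σ (τ a) ∈ V ↔ a ∈ V
  rw [h, h']

theorem isDecompAt_one : IsDecompAt V 1 := fun _ => Iff.rfl

theorem IsDecompAt.map_nonunits {σ : GalQ} (h : IsDecompAt V σ) {a : Qb} :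
    σ a ∈ V.nonunits ↔ a ∈ V.nonunits := by
  rw [ValuationSubring.mem_nonunits_iff_or, ValuationSubring.mem_nonunits_iff_or, ← map_inv₀,
    h, map_eq_zero]

theorem isInertiaAt_isDecompAt {σ : GalQ} (h : IsInertiaAt V σ) : IsDecompAt V σ := by
  -- `σ V ⊆ V`, and `σ` has finite order on every element
  have h1 : ∀ a ∈ V, σ a ∈ V := by
    intro a ha
    have := mem_of_mem_nonunits V (h a ha)
    have h2 : σ a = (σ a - a) + a := by ring
    rw [h2]
    exact V.add_mem _ _ this ha
  have hpow : ∀ (n : ℕ) (a : Qb), a ∈ V → (σ ^ n) a ∈ V := by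
    intro n
    induction n with
    | zero => intro a ha; simpa using ha
    | succ n ih =>
      intro a ha
      rw [pow_succ]
      exact ih _ (h1 a ha)
  intro a
  refine ⟨fun ha => ?_, h1 a⟩
  -- `a` has an open stabiliser, so `σ ^ n` fixes `a` for some `n ≥ 1`
  have hopen := stabilizer_isOpen_of_isIntegral (K := ℚ) (L := Qb) a
  haveI : Finite (GalQ ⧸ MulAction.stabilizer GalQ a) :=
    Subgroup.quotient_finite_of_isOpen _ hopen
  haveI : (MulAction.stabilizer GalQ a).FiniteIndex := Subgroup.finiteIndex_of_finite_quotient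
  obtain ⟨n, hn, -, hmem⟩ := Subgroup.exists_pow_mem_of_index_ne_zero
    (H := MulAction.stabilizer GalQ a) Subgroup.FiniteIndex.index_ne_zero σ
  have hfix' : (σ ^ n) • a = a := MulAction.mem_stabilizer_iff.mp hmem
  have hfix : (σ ^ n) a = a := hfix'
  obtain ⟨k, rfl⟩ : ∃ k, n = k + 1 := ⟨n - 1, by omega⟩
  have h3 := hpow k (σ a) ha
  have h4 : (σ ^ k) (σ a) = (σ ^ (k + 1)) a := by
    rw [pow_succ]
    rfl
  rw [h4, hfix] at h3
  exact h3

theorem mem_inv_smul_iff (σ : GalQ) (x : Qb) : x ∈ σ⁻¹ • V ↔ σ x ∈ V := by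
  rw [ValuationSubring.mem_pointwise_smul_iff_inv_smul_mem, inv_inv]
  rfl

theorem mem_inv_smul_nonunits_iff (σ : GalQ) (x : Qb) :
    x ∈ (σ⁻¹ • V).nonunits ↔ σ x ∈ V.nonunits := by
  rw [ValuationSubring.mem_nonunits_iff_or, ValuationSubring.mem_nonunits_iff_or,
    mem_inv_smul_iff, map_inv₀, map_eq_zero]

variable (F : IntermediateField ℚ Qb)

/-- The ring of integers of `F`, as the invariants of `Gal(Q̄/F)` in `ℤ̄`. -/
abbrev OF : Subalgebra ℤ Zbar := FixedPoints.subalgebra ℤ Zbar F.fixingSubgroup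

instance instIsIntegralOF : Algebra.IsIntegral ℤ (OF F) :=
  ⟨fun x => by
    have h : IsIntegral ℤ ((x : Zbar) : Qb) := (x : Zbar).2
    have h2 : IsIntegral ℤ (x : Zbar) := by
      rw [← isIntegral_algebraMap_iff (B := Qb) Subtype.val_injective]
      exact h
    rw [← isIntegral_algebraMap_iff (B := Zbar) Subtype.val_injective]
    exact h2⟩

/-- The prime of `OF F` below a valuation subring. -/
def primeF (V : ValuationSubring Qb) : Ideal (OF F) := (primeOf V).under (OF F)

instance primeF_isPrime : (primeF F V).IsPrime := Ideal.comap_isPrime _ _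

theorem mem_primeF {x : OF F} : x ∈ primeF F V ↔ ((x : Zbar) : Qb) ∈ V.nonunits := by
  rw [primeF, Ideal.under, Ideal.mem_comap, ← mem_primeOf]
  rfl

theorem primeF_isMaximal (hℓ : ℓ.Prime) (hV : (ℓ : Qb) ∈ V.nonunits) :
    (primeF F V).IsMaximal := by
  have hmax : (Ideal.span {(ℓ : ℤ)}).IsMaximal :=
    PrincipalIdealRing.isMaximal_of_irreducible
      (Nat.prime_iff_prime_int.mp hℓ).irreducible
  have hle : Ideal.span {(ℓ : ℤ)} ≤ (primeF F V).comap (algebraMap ℤ (OF F)) := by
    rw [Ideal.span_le, Set.singleton_subset_iff]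
    show algebraMap ℤ (OF F) (ℓ : ℤ) ∈ primeF F V
    rw [mem_primeF]
    simpa using hV
  have hne : (primeF F V).comap (algebraMap ℤ (OF F)) ≠ ⊤ :=
    (Ideal.comap_isPrime (algebraMap ℤ (OF F)) (primeF F V)).ne_top
  have heq := hmax.eq_of_le hne hle
  exact Ideal.isMaximal_of_isIntegral_of_isMaximal_comap _ (heq ▸ hmax)

/-- Continuity of the action of `Gal(Q̄/F)` on the discrete ring `ℤ̄`. -/
theorem continuousSMul_Zbar :
    letI : TopologicalSpace Zbar := ⊥
    ContinuousSMul F.fixingSubgroup Zbar := by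
  letI : TopologicalSpace Zbar := ⊥
  haveI : DiscreteTopology Zbar := ⟨rfl⟩
  rw [continuousSMul_iff_stabilizer_isOpen]
  intro x
  have hopen := stabilizer_isOpen_of_isIntegral (K := ℚ) (L := Qb) (x : Qb)
  have : (MulAction.stabilizer F.fixingSubgroup x : Set F.fixingSubgroup) =
      Subtype.val ⁻¹' (MulAction.stabilizer G (x : Qb) : Set G) := by
    ext g
    simp only [SetLike.mem_coe, MulAction.mem_stabilizer_iff, Set.mem_preimage, Subtype.ext_iff]
    rfl
  rw [this]
  exact hopen.preimage continuous_subtype_val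

/-- A coset not meeting the decomposition group gives a different prime of `OF F`. -/
theorem primeF_ne_of_bad (hℓ : ℓ.Prime) (hV : (ℓ : Qb) ∈ V.nonunits) (σ : GalQ)
    (hbad : ∀ ρ ∈ F.fixingSubgroup, ¬ IsDecompAt V (σ * ρ)) :
    primeF F (σ⁻¹ • V) ≠ primeF F V := by
  intro heq
  letI : TopologicalSpace Zbar := ⊥
  haveI : DiscreteTopology Zbar := ⟨rfl⟩
  haveI : ContinuousSMul F.fixingSubgroup Zbar := continuousSMul_Zbar F
  have hV' : (ℓ : Qb) ∈ (σ⁻¹ • V).nonunits := by
    rw [mem_inv_smul_nonunits_iff, map_natCast]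
    exact hV
  obtain ⟨g, hg⟩ := Algebra.IsInvariant.exists_smul_of_under_eq_of_profinite
    (A := OF F) (G := F.fixingSubgroup) (primeOf (σ⁻¹ • V)) (primeOf V) heq
  have h1 : g.1 • (σ⁻¹ • V) = V := by
    refine smul_eq_of_primeOf V (σ⁻¹ • V) hℓ hV hV' g.1 fun s => ?_
    rw [hg]
    exact (Ideal.smul_mem_pointwise_smul_iff (a := g) (S := primeOf (σ⁻¹ • V)) (x := s)).symm
  rw [← mul_smul] at h1
  have h2 : IsDecompAt V (g.1 * σ⁻¹) := (isDecompAt_iff_smul_eq _).mpr h1
  have h3 := IsDecompAt.inv h2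
  rw [mul_inv_rev, inv_inv] at h3
  exact hbad (g.1)⁻¹ (F.fixingSubgroup.inv_mem g.2) h3

/-- **Approximation.** -/
theorem exists_approx (hℓ : ℓ.Prime) (hV : (ℓ : Qb) ∈ V.nonunits) {ι : Type} [Finite ι]
    (σ : ι → GalQ) (hbad : ∀ i, ∀ ρ ∈ F.fixingSubgroup, ¬ IsDecompAt V (σ i * ρ)) :
    ∃ u : Qb, (∀ ρ ∈ F.fixingSubgroup, ρ u = u) ∧ u ∈ V ∧ u - 1 ∈ V.nonunits ∧
      ∀ i, σ i u ∈ V.nonunits := by
  classical
  haveI : Fintype ι := Fintype.ofFinite ι
  have hmax := primeF_isMaximal F (V := V) hℓ hV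
  -- for every `i` an element of the prime at `σ i`, outside the prime at `V`
  have hex : ∀ i, ∃ b : OF F, b ∈ primeF F ((σ i)⁻¹ • V) ∧ b ∉ primeF F V := by
    intro i
    by_contra hcon
    push Not at hcon
    have hle : primeF F ((σ i)⁻¹ • V) ≤ primeF F V := hcon
    have hV' : (ℓ : Qb) ∈ ((σ i)⁻¹ • V).nonunits := by
      rw [mem_inv_smul_nonunits_iff, map_natCast]
      exact hV
    have hmax' := primeF_isMaximal F (V := (σ i)⁻¹ • V) hℓ hV'
    exact primeF_ne_of_bad F hℓ hV (σ i) (hbad i) (hmax'.eq_of_le hmax.ne_top hle)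
  choose b hb hb' using hex
  -- the product
  have hprod : (∏ i, b i) ∉ primeF F V := by
    intro h
    obtain ⟨i, _, hi⟩ := Ideal.IsPrime.prod_mem_iff.mp h
    exact hb' i hi
  obtain ⟨y, i0, hi0, hy⟩ := hmax.exists_inv hprod
  -- `u = y * ∏ b i = 1 - i0`
  refine ⟨(((y * ∏ i, b i : OF F) : Zbar) : Qb), ?_, ?_, ?_, ?_⟩
  · intro ρ hρ
    have := (y * ∏ i, b i : OF F).2 ⟨ρ, hρ⟩
    exact congrArg Subtype.val this
  · exact coe_mem V _
  · have h1 : (y * ∏ i, b i : OF F) = 1 - i0 := by
      rw [← hy]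
      ring
    rw [h1]
    have h2 : (((1 - i0 : OF F) : Zbar) : Qb) - 1 = -(((i0 : OF F) : Zbar) : Qb) := by
      push_cast
      ring
    rw [h2]
    exact nonunits_neg_mem V ((mem_primeF F).mp hi0)
  · intro i
    have hmem : (y * ∏ j, b j : OF F) ∈ primeF F ((σ i)⁻¹ • V) := by
      refine Ideal.mul_mem_left _ _ ?_
      rw [← Finset.mul_prod_erase Finset.univ b (Finset.mem_univ i)]
      exact Ideal.mul_mem_right _ _ (hb i)
    have h3 := (mem_primeF F).mp hmem
    rwa [mem_inv_smul_nonunits_iff] at h3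

end

end Fermat.Agent.S19.Unr.H992

end
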