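import Fermat.Agent.S19.Unr.H992.Base

/-!
# UNR / node UA (helper992) — closure under the decomposition group

`closureStatement : ClosureStatement` (frozen in `Fermat/Agent/S19/Unr/Spec.lean`): the
`V`-algebra generated by the decomposition-conjugates of local coordinates is a `LocalOrder`.
-/

set_option autoImplicit false
set_option linter.unusedSectionVars false
set_option linter.style.haveILetI false
set_option linter.unusedVariables false

noncomputable section

namespace Fermat.Agent.S19.Unr.H992

open Fermat.Agent.S19 Fermat.Agent.S19.Unr Fermat.Agent.S14.H714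

variable {M : Type} [AddCommGroup M] {act : GalQ → M → M} {V : ValuationSubring Qb}

/-- The decomposition-conjugates of the coordinate functions. -/
def gensD (V : ValuationSubring Qb) (act : GalQ → M → M) {ι : Type} (Ψ : M → ι → Qb) :
    Set (M → Qb) :=
  {f | ∃ σ : GalQ, IsDecompAt V σ ∧ ∃ i : ι, f = conjFun act σ (fun m => Ψ m i)}

/-- The semilinear action on functions of two variables. -/
def conjFun₂ (act : GalQ → M → M) (σ : GalQ) (H : M × M → Qb) : M × M → Qb :=
  fun p => σ (H (act σ⁻¹ p.1, act σ⁻¹ p.2))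

theorem isIntegral_of_valued [Finite M] {h : M → Qb} (hh : ∀ m, h m ∈ V) : IsIntegral V h := by
  classical
  haveI := Fintype.ofFinite M
  refine ⟨∏ m, (Polynomial.X - Polynomial.C (⟨h m, hh m⟩ : V)),
    Polynomial.monic_prod_of_monic _ _ (fun m _ => Polynomial.monic_X_sub_C _), ?_⟩
  rw [Polynomial.eval₂_finset_prod]
  funext m'
  rw [Finset.prod_apply]
  refine Finset.prod_eq_zero (Finset.mem_univ m') ?_
  simp only [Polynomial.eval₂_sub, Polynomial.eval₂_X, Polynomial.eval₂_C, Pi.sub_apply]
  exact sub_self _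

theorem gensD_finite [Finite M] {ι : Type} [Finite ι] (Ψ : M → ι → Qb) :
    (gensD V act Ψ).Finite := by
  classical
  let C : Set Qb := ⋃ (m : M) (i : ι), (minpoly ℚ (Ψ m i)).rootSet Qb
  have hC : C.Finite :=
    Set.finite_iUnion fun m => Set.finite_iUnion fun i => Polynomial.rootSet_finite _ _
  have hsub : gensD V act Ψ ⊆ {f : M → Qb | ∀ m, f m ∈ C} := by
    rintro f ⟨σ, hσ, i, rfl⟩ m
    simp only [conjFun_apply, C, Set.mem_iUnion]
    refine ⟨act σ⁻¹ m, i, ?_⟩
    rw [Polynomial.mem_rootSet]
    refine ⟨minpoly.ne_zero (Algebra.IsIntegral.isIntegral _), ?_⟩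
    have h1 := Polynomial.aeval_algHom_apply (σ : Qb →ₐ[ℚ] Qb) (Ψ (act σ⁻¹ m) i)
      (minpoly ℚ (Ψ (act σ⁻¹ m) i))
    rw [minpoly.aeval, map_zero] at h1
    exact h1
  exact (Set.Finite.pi' fun _ => hC).subset hsub

theorem isInertiaAt_conj {σ ι : GalQ} (hσ : IsDecompAt V σ) (hι : IsInertiaAt V ι) :
    IsInertiaAt V (σ⁻¹ * ι * σ) := by
  intro a ha
  have h1 : σ a ∈ V := (hσ a).mpr ha
  have h2 := hι (σ a) h1
  have h3 : (σ⁻¹ * ι * σ) a - a = σ⁻¹ (ι (σ a) - σ a) := by
    rw [map_sub]
    congr 1
    exact (σ.symm_apply_apply a).symm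
  rw [h3]
  exact (IsDecompAt.map_nonunits (IsDecompAt.inv hσ)).mpr h2

theorem isInertiaEquivariant_conj (hact : IsContAddAction act) {σ : GalQ} (hσ : IsDecompAt V σ)
    {f : M → Qb} (hf : IsInertiaEquivariant V act f) :
    IsInertiaEquivariant V act (conjFun act σ f) := by
  intro ι hι m
  have h1 := hf _ (isInertiaAt_conj hσ hι) (act σ⁻¹ m)
  simp only [conjFun_apply]
  have h2 : act σ⁻¹ (act ι m) = act (σ⁻¹ * ι * σ) (act σ⁻¹ m) := by
    rw [← hact.act_mul, ← hact.act_mul]
    congr 1
    group
  rw [h2, h1]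
  show σ ((σ⁻¹ * ι * σ) (f (act σ⁻¹ m))) = ι (σ (f (act σ⁻¹ m)))
  show σ (σ⁻¹ (ι (σ (f (act σ⁻¹ m))))) = ι (σ (f (act σ⁻¹ m)))
  exact σ.apply_symm_apply _

theorem isInertiaEquivariant_one : IsInertiaEquivariant V act (1 : M → Qb) := by
  intro ι _ m
  simp

theorem isInertiaEquivariant_mul {f g : M → Qb} (hf : IsInertiaEquivariant V act f)
    (hg : IsInertiaEquivariant V act g) : IsInertiaEquivariant V act (f * g) := by
  intro ι hι m
  simp only [Pi.mul_apply, map_mul]
  rw [hf ι hι m, hg ι hι m]

section Order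

variable (hact : IsContAddAction act) {ℓ : ℕ} (L : LocalCoordDatum ℓ M act)

/-- The local order attached to local coordinates. -/
def orderB : Subalgebra L.V (M → Qb) := Algebra.adjoin L.V (gensD L.V act L.Ψ)

theorem gens_valued {f : M → Qb} (hf : f ∈ gensD L.V act L.Ψ) (m : M) : f m ∈ L.V := by
  obtain ⟨σ, hσ, i, rfl⟩ := hf
  exact (hσ _).mpr (L.integral _ i)

theorem orderB_valued {h : M → Qb} (hh : h ∈ orderB L) (m : M) : h m ∈ L.V := by
  induction hh using Algebra.adjoin_induction with
  | mem x hx => exact gens_valued L hx m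
  | algebraMap r => exact r.2
  | add x y _ _ ihx ihy => exact L.V.add_mem _ _ ihx ihy
  | mul x y _ _ ihx ihy => exact L.V.mul_mem _ _ ihx ihy

theorem orderB_fg [Finite M] : (Subalgebra.toSubmodule (orderB L)).FG := by
  haveI := L.fin
  exact fg_adjoin_of_finite (gensD_finite L.Ψ)
    (fun f hf => isIntegral_of_valued (fun m => gens_valued L hf m))

theorem conjFun_algebraMap {σ : GalQ} (hσ : IsDecompAt L.V σ) (r : L.V) :
    conjFun act σ (algebraMap L.V (M → Qb) r)
      = algebraMap L.V (M → Qb) ⟨σ (r : Qb), (hσ _).mpr r.2⟩ := by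
  funext m
  rfl

include hact in
theorem orderB_stable {σ : GalQ} (hσ : IsDecompAt L.V σ) {h : M → Qb} (hh : h ∈ orderB L) :
    conjFun act σ h ∈ orderB L := by
  induction hh using Algebra.adjoin_induction with
  | mem x hx =>
    obtain ⟨τ, hτ, i, rfl⟩ := hx
    rw [← conjFun_mul hact]
    exact Algebra.subset_adjoin ⟨σ * τ, IsDecompAt.mul hσ hτ, i, rfl⟩
  | algebraMap r =>
    rw [conjFun_algebraMap L hσ]
    exact Subalgebra.algebraMap_mem _ _
  | add x y _ _ ihx ihy =>
    rw [conjFun_add]
    exact Subalgebra.add_mem _ ihx ihy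
  | mul x y _ _ ihx ihy =>
    rw [conjFun_mul_fun]
    exact Subalgebra.mul_mem _ ihx ihy

include hact in
theorem gens_inertia {f : M → Qb} (hf : f ∈ gensD L.V act L.Ψ) :
    IsInertiaEquivariant L.V act f := by
  obtain ⟨σ, hσ, i, rfl⟩ := hf
  exact isInertiaEquivariant_conj hact hσ (fun ι hι m => L.equivariant ι hι m i)

include hact in
theorem orderB_span_inertia : Subalgebra.toSubmodule (orderB L) ≤
    Submodule.span L.V {h | h ∈ orderB L ∧ IsInertiaEquivariant L.V act h} := by
  intro h hh
  have h1 : h ∈ Submodule.span L.V (Submonoid.closure (gensD L.V act L.Ψ) : Set (M → Qb)) := by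
    rw [← Algebra.adjoin_eq_span]
    exact hh
  refine Submodule.span_mono ?_ h1
  intro x hx
  induction hx using Submonoid.closure_induction with
  | mem y hy => exact ⟨Algebra.subset_adjoin hy, gens_inertia hact L hy⟩
  | one => exact ⟨Subalgebra.one_mem _, isInertiaEquivariant_one⟩
  | mul y z _ _ ihy ihz =>
    exact ⟨Subalgebra.mul_mem _ ihy.1 ihz.1, isInertiaEquivariant_mul ihy.2 ihz.2⟩

include hact in
theorem orderB_separates (m m' : M) (h : ∀ b ∈ orderB L, b m = b m') : m = m' := by
  apply L.inj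
  funext i
  have h1 : (fun m => L.Ψ m i) ∈ orderB L := by
    refine Algebra.subset_adjoin ⟨1, isDecompAt_one, i, ?_⟩
    rw [conjFun_one hact]
  exact h _ h1

/-- The `V`-algebra generated by the functions `b(s) b'(t)`. -/
def tensorAlg : Subalgebra L.V (M × M → Qb) :=
  Algebra.adjoin L.V (tensorFunctions (orderB L : Set (M → Qb)))

theorem tensorFunctions_mem {b b' : M → Qb} (hb : b ∈ orderB L) (hb' : b' ∈ orderB L) :
    (fun p : M × M => b p.1 * b' p.2) ∈ tensorFunctions (orderB L : Set (M → Qb)) :=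
  ⟨b, hb, b', hb', rfl⟩

theorem fst_mem_tensorAlg {b : M → Qb} (hb : b ∈ orderB L) :
    (fun p : M × M => b p.1) ∈ tensorAlg L := by
  have := tensorFunctions_mem L hb (Subalgebra.one_mem _)
  refine Algebra.subset_adjoin ?_
  convert this using 2
  simp

theorem snd_mem_tensorAlg {b : M → Qb} (hb : b ∈ orderB L) :
    (fun p : M × M => b p.2) ∈ tensorAlg L := by
  have := tensorFunctions_mem L (Subalgebra.one_mem _) hb
  refine Algebra.subset_adjoin ?_
  convert this using 2
  simp

theorem tensorAlg_le_span : Subalgebra.toSubmodule (tensorAlg L) ≤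
    Submodule.span L.V (tensorFunctions (orderB L : Set (M → Qb))) := by
  intro h hh
  have h1 : h ∈ Submodule.span L.V
      (Submonoid.closure (tensorFunctions (orderB L : Set (M → Qb))) : Set (M × M → Qb)) := by
    rw [← Algebra.adjoin_eq_span]
    exact hh
  refine Submodule.span_mono ?_ h1
  intro x hx
  induction hx using Submonoid.closure_induction with
  | mem y hy => exact hy
  | one =>
    refine ⟨1, Subalgebra.one_mem _, 1, Subalgebra.one_mem _, ?_⟩
    funext p
    simp
  | mul y z _ _ ihy ihz =>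
    obtain ⟨b1, hb1, b1', hb1', rfl⟩ := ihy
    obtain ⟨b2, hb2, b2', hb2', rfl⟩ := ihz
    refine ⟨b1 * b2, Subalgebra.mul_mem _ hb1 hb2, b1' * b2', Subalgebra.mul_mem _ hb1' hb2', ?_⟩
    funext p
    simp only [Pi.mul_apply]
    ring

include hact in
/-- Conjugation maps the coordinate algebra of `L.add_mem` into the tensor algebra. -/
theorem conjFun₂_mem {σ : GalQ} (hσ : IsDecompAt L.V σ) {H : M × M → Qb}
    (hH : H ∈ Algebra.adjoin L.V ({f | ∃ j, f = fun p : M × M => L.Ψ p.1 j} ∪
        {f | ∃ j, f = fun p : M × M => L.Ψ p.2 j})) :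
    conjFun₂ act σ H ∈ tensorAlg L := by
  induction hH using Algebra.adjoin_induction with
  | mem x hx =>
    rcases hx with ⟨j, rfl⟩ | ⟨j, rfl⟩
    · exact fst_mem_tensorAlg L (b := conjFun act σ (fun m => L.Ψ m j))
        (Algebra.subset_adjoin ⟨σ, hσ, j, rfl⟩)
    · exact snd_mem_tensorAlg L (b := conjFun act σ (fun m => L.Ψ m j))
        (Algebra.subset_adjoin ⟨σ, hσ, j, rfl⟩)
  | algebraMap r =>
    have : conjFun₂ act σ (algebraMap L.V (M × M → Qb) r)
        = algebraMap L.V (M × M → Qb) ⟨σ (r : Qb), (hσ _).mpr r.2⟩ := by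
      funext p
      rfl
    rw [this]
    exact Subalgebra.algebraMap_mem _ _
  | add x y _ _ ihx ihy =>
    have : conjFun₂ act σ (x + y) = conjFun₂ act σ x + conjFun₂ act σ y := by
      funext p
      simp [conjFun₂]
    rw [this]
    exact Subalgebra.add_mem _ ihx ihy
  | mul x y _ _ ihx ihy =>
    have : conjFun₂ act σ (x * y) = conjFun₂ act σ x * conjFun₂ act σ y := by
      funext p
      simp [conjFun₂]
    rw [this]
    exact Subalgebra.mul_mem _ ihx ihy

include hact in
theorem orderB_comul_alg {h : M → Qb} (hh : h ∈ orderB L) :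
    (fun p : M × M => h (p.1 + p.2)) ∈ tensorAlg L := by
  induction hh using Algebra.adjoin_induction with
  | mem x hx =>
    obtain ⟨σ, hσ, i, rfl⟩ := hx
    have h1 := conjFun₂_mem hact L hσ (L.add_mem i)
    have h2 : (fun p : M × M => conjFun act σ (fun m => L.Ψ m i) (p.1 + p.2))
        = conjFun₂ act σ (fun p : M × M => L.Ψ (p.1 + p.2) i) := by
      funext p
      simp only [conjFun_apply, conjFun₂, hact.act_add]
    rw [h2]
    exact h1
  | algebraMap r => exact Subalgebra.algebraMap_mem (tensorAlg L) r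
  | add x y _ _ ihx ihy => exact Subalgebra.add_mem _ ihx ihy
  | mul x y _ _ ihx ihy => exact Subalgebra.mul_mem _ ihx ihy

/-- The local order of a local coordinate datum. -/
def localOrder [Finite M] : LocalOrder L.V M act where
  B := orderB L
  valued := fun h hh m => orderB_valued L hh m
  fg := orderB_fg L
  stable := fun σ hσ h hh => orderB_stable hact L hσ hh
  span_inertia := orderB_span_inertia hact L
  separates := orderB_separates hact L
  comul := fun h hh => tensorAlg_le_span L (orderB_comul_alg hact L hh)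

end Order

/-- **Node UA**: local coordinates give a local order. -/
theorem closureStatement : ClosureStatement := by
  intro ℓ _ M _ _ act hact L
  exact ⟨localOrder hact L⟩

end Fermat.Agent.S19.Unr.H992

end
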